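import Mathlib
import Fermat.Agent.S37.H939.Fibre

/-!
# Tame discriminant bound in characteristic zero: basic tools
(row S37 / S18, piece b2 = R-b (T); seat helper939)

* `exists_mul_eq_algebraMap_norm` : `z ∣ N(z)` in a finite free algebra (Cayley–Hamilton);
* `fibreRep b c : T →+* Matrix ι ι K` : the regular representation of the fibre over `X = c`;
* `mem_radical_of_eval_trace_eq_zero` : in characteristic zero the radical of the trace form of the
  fibre is the nilradical;
* `discr_ne_zero_of_charZero`.
-/

set_option autoImplicit false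
set_option linter.unusedSectionVars false
set_option linter.style.haveILetI false

namespace Fermat.Agent.S37.H939

open Polynomial Matrix

section CayleyHamilton

variable {R S : Type*} [CommRing R] [CommRing S] [Algebra R S]
variable {ι : Type*} [Fintype ι] [DecidableEq ι] (b : Module.Basis ι R S)

/-- Every element of a finite free algebra divides its norm. -/
theorem exists_mul_eq_algebraMap_norm (z : S) :
    ∃ z' : S, z * z' = algebraMap R S (Algebra.leftMulMatrix b z).det := by
  set M := Algebra.leftMulMatrix b z with hM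
  have h1 : aeval z M.charpoly = 0 := by
    apply Algebra.leftMulMatrix_injective b
    rw [map_zero, ← aeval_algHom_apply, ← hM]
    exact Matrix.aeval_self_charpoly M
  have h2 := divX_mul_X_add M.charpoly
  have h3 : aeval z (divX M.charpoly) * z + algebraMap R S (M.charpoly.coeff 0) = 0 := by
    rw [← h1]
    conv_rhs => rw [← h2]
    simp
  have h4 := Matrix.det_eq_sign_charpoly_coeff M
  refine ⟨(-1) ^ (Fintype.card ι + 1) * aeval z (divX M.charpoly), ?_⟩
  have h5 : algebraMap R S (M.charpoly.coeff 0) = - (aeval z (divX M.charpoly) * z) := by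
    rw [eq_neg_iff_add_eq_zero, add_comm]; exact h3
  rw [h4, map_mul, map_pow, map_neg, map_one, h5, pow_succ]
  ring

end CayleyHamilton

section FibreRep

variable {K : Type*} [Field K]
variable {T : Type*} [CommRing T] [Algebra K[X] T] [Algebra K T] [IsScalarTower K K[X] T]
variable {ι : Type*} [Fintype ι] [DecidableEq ι] (b : Module.Basis ι K[X] T)

/-- The regular representation of the fibre of `T` over `X = c`. -/
noncomputable def fibreRep (c : K) : T →+* Matrix ι ι K :=
  (evalRingHom c).mapMatrix.comp (Algebra.leftMulMatrix b).toRingHom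

lemma fibreRep_apply (c : K) (z : T) (i j : ι) :
    fibreRep b c z i j = (b.repr (z * b j) i).eval c := by
  simp [fibreRep, Algebra.leftMulMatrix_eq_repr_mul]

lemma trace_fibreRep (c : K) (z : T) :
    (fibreRep b c z).trace = (Algebra.trace K[X] T z).eval c := by
  rw [Algebra.trace_eq_matrix_trace b]
  simp [fibreRep, Matrix.trace, eval_finsetSum]

lemma fibreRep_eq_zero_iff (c : K) (z : T) : fibreRep b c z = 0 ↔ z ∈ fibreIdeal T c := by
  constructor
  · intro h
    have h1 : ∀ j, z * b j ∈ fibreIdeal T c := by
      intro j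
      rw [← coord_eq_zero_iff b]
      funext i
      have := congrFun (congrFun h i) j
      rw [fibreRep_apply] at this
      simpa using this
    have h2 : z = ∑ j, b.repr 1 j • (z * b j) := by
      conv_lhs => rw [← mul_one z, ← b.sum_repr 1, Finset.mul_sum]
      refine Finset.sum_congr rfl fun j _ => ?_
      rw [mul_smul_comm]
    rw [h2]
    exact Ideal.sum_mem _ fun j _ => by
      rw [Algebra.smul_def]
      exact Ideal.mul_mem_left _ _ (h1 j)
  · intro h
    ext i j
    rw [fibreRep_apply, Matrix.zero_apply]
    have h1 : z * b j ∈ fibreIdeal T c := Ideal.mul_mem_right _ _ h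
    have := (coord_eq_zero_iff b c (z * b j)).mpr h1
    exact congrFun this i

end FibreRep

section Idem

variable {K : Type*} [Field K] [CharZero K]
variable {ι : Type*} [Fintype ι] [DecidableEq ι]

/-- An idempotent matrix of trace zero over a field of characteristic zero vanishes. -/
lemma matrix_eq_zero_of_idem_of_trace_eq_zero (E : Matrix ι ι K) (hE : E * E = E)
    (htr : E.trace = 0) : E = 0 := by
  have hid : IsIdempotentElem (Matrix.toLin' E) := by
    show Matrix.toLin' E ∘ₗ Matrix.toLin' E = Matrix.toLin' E
    rw [← Matrix.toLin'_mul, hE]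
  have h0 : Matrix.toLin' E = 0 := by
    rw [← LinearMap.IsIdempotentElem.trace_eq_zero_iff hid, Matrix.trace_toLin'_eq]
    exact htr
  exact (Matrix.toLin' : Matrix ι ι K ≃ₗ[K] _).injective (by rw [h0, map_zero])

end Idem

section TraceRadical

variable {K : Type*} [Field K]
variable {T : Type*} [CommRing T] [Algebra K[X] T] [Algebra K T] [IsScalarTower K K[X] T]
variable {ι : Type*} [Fintype ι] [DecidableEq ι] (b : Module.Basis ι K[X] T)

include b in
/-- Quotients of the fibre are finite-dimensional. -/
lemma finite_quot_of_fibreIdeal_le (c : K) (I : Ideal T) (hI : fibreIdeal T c ≤ I) :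
    Module.Finite K (T ⧸ I) := by
  let Ψ : (ι → K) →ₗ[K] T ⧸ I := (Ideal.Quotient.mkₐ K I).toLinearMap ∘ₗ lift b
  have hΨsurj : Function.Surjective Ψ := by
    intro q
    obtain ⟨z, rfl⟩ := Ideal.Quotient.mk_surjective q
    refine ⟨coord b c z, ?_⟩
    show Ideal.Quotient.mk I (lift b (coord b c z)) = Ideal.Quotient.mk I z
    rw [eq_comm, Ideal.Quotient.eq]
    exact hI (sub_lift_coord_mem b c z)
  exact Module.Finite.of_surjective Ψ hΨsurj

variable [CharZero K]

include b in
/-- **(III.1)** In characteristic zero, an element whose trace form vanishes on the fibre over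
`X = c` is nilpotent on the fibre. -/
theorem mem_radical_of_eval_trace_eq_zero (c : K) (u : T)
    (h : ∀ z : T, (Algebra.trace K[X] T (u * z)).eval c = 0) :
    u ∈ (fibreIdeal T c).radical := by
  classical
  set I := fibreIdeal T c with hI
  haveI : Module.Finite K (T ⧸ I) := finite_quot_of_fibreIdeal_le b c I le_rfl
  haveI : IsArtinianRing (T ⧸ I) := IsArtinianRing.of_finite K (T ⧸ I)
  set x : T ⧸ I := Ideal.Quotient.mk I u with hx
  obtain ⟨n, y, hy⟩ := IsArtinian.exists_pow_succ_smul_dvd x (1 : T ⧸ I)
  simp only [smul_eq_mul, mul_one, Nat.succ_eq_add_one] at hy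
  obtain ⟨y', rfl⟩ := Ideal.Quotient.mk_surjective y
  have hj : ∀ j : ℕ, x ^ (n + j) * (Ideal.Quotient.mk I y') ^ j = x ^ n := by
    intro j
    induction j with
    | zero => simp
    | succ j ih =>
      calc x ^ (n + (j + 1)) * (Ideal.Quotient.mk I y') ^ (j + 1)
          = (x ^ (n + 1) * Ideal.Quotient.mk I y') *
              (x ^ j * (Ideal.Quotient.mk I y') ^ j) := by ring
        _ = x ^ n * (x ^ j * (Ideal.Quotient.mk I y') ^ j) := by rw [hy]
        _ = x ^ (n + j) * (Ideal.Quotient.mk I y') ^ j := by ring
        _ = x ^ n := ih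
  -- the idempotent
  set e' : T := u * (u ^ n * y' ^ (n + 1)) with he'
  have he1 : Ideal.Quotient.mk I e' = x ^ n * (Ideal.Quotient.mk I y') ^ n := by
    rw [he', map_mul, map_mul, map_pow, map_pow, ← hx]
    calc x * (x ^ n * (Ideal.Quotient.mk I y') ^ (n + 1))
        = (x ^ (n + 1) * Ideal.Quotient.mk I y') * (Ideal.Quotient.mk I y') ^ n := by ring
      _ = x ^ n * (Ideal.Quotient.mk I y') ^ n := by rw [hy]
  have he2 : Ideal.Quotient.mk I (e' * e' - e') = 0 := by
    rw [map_sub, map_mul, he1]
    calc x ^ n * (Ideal.Quotient.mk I y') ^ n * (x ^ n * (Ideal.Quotient.mk I y') ^ n) -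
          x ^ n * (Ideal.Quotient.mk I y') ^ n
        = (x ^ (n + n) * (Ideal.Quotient.mk I y') ^ n) * (Ideal.Quotient.mk I y') ^ n -
          x ^ n * (Ideal.Quotient.mk I y') ^ n := by ring
      _ = 0 := by rw [hj n, sub_self]
  have hE : fibreRep b c e' * fibreRep b c e' = fibreRep b c e' := by
    have h0 : fibreRep b c (e' * e' - e') = 0 :=
      (fibreRep_eq_zero_iff b c _).mpr (Ideal.Quotient.eq_zero_iff_mem.mp he2)
    rw [map_sub, map_mul, sub_eq_zero] at h0
    exact h0
  have htr : (fibreRep b c e').trace = 0 := by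
    rw [trace_fibreRep, he']
    exact h _
  have hE0 := matrix_eq_zero_of_idem_of_trace_eq_zero _ hE htr
  have he0 : Ideal.Quotient.mk I e' = 0 :=
    Ideal.Quotient.eq_zero_iff_mem.mpr ((fibreRep_eq_zero_iff b c _).mp hE0)
  refine ⟨n, ?_⟩
  rw [← Ideal.Quotient.eq_zero_iff_mem, map_pow, ← hx, ← hj n, pow_add, mul_assoc, ← he1, he0,
    mul_zero]

end TraceRadical

section CharZero

variable {K : Type*} [Field K] [CharZero K]
variable {T : Type*} [CommRing T] [Algebra K[X] T] [Algebra K T] [IsScalarTower K K[X] T]
variable {ι : Type*} [Fintype ι] [DecidableEq ι] (b : Module.Basis ι K[X] T)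

/-- `Tr (u * z)` in terms of the traces `Tr (u * b i)`. -/
lemma trace_mul_eq_sum (u z : T) :
    Algebra.trace K[X] T (u * z) = ∑ i, b.repr z i * Algebra.trace K[X] T (u * b i) := by
  conv_lhs => rw [← b.sum_repr z, Finset.mul_sum, map_sum]
  refine Finset.sum_congr rfl fun i _ => ?_
  rw [mul_smul_comm, map_smul, smul_eq_mul]

/-- In characteristic zero a finite free domain over `K[X]` has nonzero discriminant. -/
theorem discr_ne_zero_of_charZero [IsDomain T] : Algebra.discr K[X] b ≠ 0 := by
  classical
  intro h0
  rw [Algebra.discr_def] at h0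
  obtain ⟨v, hv, hGv⟩ := Matrix.exists_mulVec_eq_zero_iff.mpr h0
  set z : T := ∑ i, v i • b i with hz
  have hz0 : z ≠ 0 := by
    intro hz0
    apply hv
    have := b.repr.map_eq_zero_iff.mpr hz0
    funext i
    have h1 : b.repr z i = v i := by
      rw [hz, map_sum]
      simp [Finsupp.single_apply]
    rw [← h1, this]
    rfl
  have htr : ∀ t : T, Algebra.trace K[X] T (z * t) = 0 := by
    intro t
    rw [trace_mul_eq_sum b]
    refine Finset.sum_eq_zero fun i _ => ?_
    have h1 : Algebra.trace K[X] T (z * b i) = (Algebra.traceMatrix K[X] b).mulVec v i := by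
      rw [Matrix.mulVec, dotProduct, hz, Finset.sum_mul, map_sum]
      refine Finset.sum_congr rfl fun j _ => ?_
      rw [Algebra.traceMatrix_apply, Algebra.traceForm_apply, smul_mul_assoc, map_smul,
        smul_eq_mul, mul_comm (b i) (b j), mul_comm]
    rw [h1, hGv]
    simp
  obtain ⟨z', hz'⟩ := exists_mul_eq_algebraMap_norm b z
  have h2 := htr z'
  rw [hz', Algebra.trace_algebraMap_of_basis b] at h2
  have hN : (Algebra.leftMulMatrix b z).det ≠ 0 := by
    rw [← Algebra.norm_eq_matrix_det b]
    exact (Algebra.norm_ne_zero_iff_of_basis b).mpr hz0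
  have hcard : Fintype.card ι ≠ 0 := by
    haveI : Nonempty ι := by
      by_contra hne
      rw [not_nonempty_iff] at hne
      apply hz0
      rw [hz]
      exact Finset.sum_eq_zero fun i _ => (hne.false i).elim
    exact Fintype.card_ne_zero
  rw [nsmul_eq_mul, mul_eq_zero] at h2
  rcases h2 with h2 | h2
  · exact hcard (by exact_mod_cast h2)
  · exact hN h2

/-- **Step 7.**  In characteristic zero, the rank of the trace form on the fibre is at least the
dimension of the reduced fibre. -/
theorem redRank_le_rank_traceMatrix_eval (c : K) :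
    redRank T c ≤ ((Algebra.traceMatrix K[X] b).map (evalRingHom c)).rank := by
  classical
  set G : Matrix ι ι K := (Algebra.traceMatrix K[X] b).map (evalRingHom c) with hG
  let Rad : Ideal T := (fibreIdeal T c).radical
  haveI : Module.Finite K (T ⧸ Rad) := finite_quot_of_fibreIdeal_le b c Rad Ideal.le_radical
  let Ψ : (ι → K) →ₗ[K] T ⧸ Rad := (Ideal.Quotient.mkₐ K Rad).toLinearMap ∘ₗ lift b
  have hΨsurj : Function.Surjective Ψ := by
    intro q
    obtain ⟨z, rfl⟩ := Ideal.Quotient.mk_surjective q
    refine ⟨coord b c z, ?_⟩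
    show Ideal.Quotient.mk Rad (lift b (coord b c z)) = Ideal.Quotient.mk Rad z
    rw [eq_comm, Ideal.Quotient.eq]
    exact Ideal.le_radical (sub_lift_coord_mem b c z)
  have hker : LinearMap.ker G.mulVecLin ≤ LinearMap.ker Ψ := by
    intro v hv
    rw [LinearMap.mem_ker] at hv ⊢
    show Ideal.Quotient.mk Rad (lift b v) = 0
    rw [Ideal.Quotient.eq_zero_iff_mem]
    apply mem_radical_of_eval_trace_eq_zero b c
    intro z
    rw [trace_mul_eq_sum b, eval_finsetSum]
    refine Finset.sum_eq_zero fun i _ => ?_
    have h1 : (Algebra.trace K[X] T (lift b v * b i)).eval c = G.mulVec v i := by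
      rw [Matrix.mulVec, dotProduct, lift_apply, Finset.sum_mul, map_sum, eval_finsetSum]
      refine Finset.sum_congr rfl fun j _ => ?_
      rw [hG, Matrix.map_apply, Algebra.traceMatrix_apply, Algebra.traceForm_apply,
        smul_mul_assoc, map_smul, smul_eq_mul, eval_mul, eval_C, coe_evalRingHom,
        mul_comm (b i) (b j), mul_comm]
    have h2 : G.mulVec v i = 0 := by
      have := congrFun hv i
      simpa using this
    rw [eval_mul, h1, h2, mul_zero]
  have h1 := LinearMap.finrank_range_add_finrank_ker G.mulVecLin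
  have h2 := LinearMap.finrank_range_add_finrank_ker Ψ
  have h3 : Module.finrank K (LinearMap.ker G.mulVecLin) ≤ Module.finrank K (LinearMap.ker Ψ) :=
    Submodule.finrank_mono hker
  have h4 : Module.finrank K (LinearMap.range Ψ) = redRank T c := by
    rw [LinearMap.range_eq_top.mpr hΨsurj, finrank_top]
    rfl
  have h5 : G.rank = Module.finrank K (LinearMap.range G.mulVecLin) := rfl
  omega

end CharZero

end Fermat.Agent.S37.H939
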