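import Mathlib
import Fermat.Agent.S37.H939.TameBasic

/-!
# Tame discriminant bound in characteristic zero
(row S37 / S18, piece b2 = R-b (T); seat helper939)

`K` a field of characteristic zero, `T` an integrally closed domain, free of rank `n` over `K[X]`
with basis `b`.  Then for every `c : K`

  `rootMultiplicity c (discr b) + redRank T c ≤ n`      (`rootMultiplicity_discr_add_redRank_le`)

and in fact equality holds (`rootMultiplicity_discr_add_redRank_eq`).
-/

set_option autoImplicit false
set_option linter.unusedSectionVars false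
set_option linter.style.haveILetI false

namespace Fermat.Agent.S37.H939

open Polynomial Matrix

section Dedekind

/-- A finite integrally closed domain over `K[X]` is a Dedekind domain. -/
theorem isDedekindDomain_of_finite {K : Type*} [Field K] {T : Type*} [CommRing T] [IsDomain T]
    [IsIntegrallyClosed T] [Algebra K[X] T] [Module.Finite K[X] T] : IsDedekindDomain T := by
  haveI : IsNoetherianRing T := IsNoetherianRing.of_finite K[X] T
  haveI : Algebra.IsIntegral K[X] T := Algebra.IsIntegral.of_finite K[X] T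
  haveI : Ring.DimensionLEOne T := Ring.DimensionLEOne.of_isIntegral K[X] T
  exact { }

/-- **Step 2** (invertibility of the ideal of denominators, integral form). -/
theorem exists_bezout_of_dedekind {T : Type*} [CommRing T] [IsDedekindDomain T] (d p : T)
    (hd : d ≠ 0) :
    ∃ α β α' β' : T, α + β' = 1 ∧ p * β = d * β' ∧ p * α = d * α' := by
  set I : Ideal T := Ideal.span {d} ⊔ Ideal.span {p} with hI
  set J : Ideal T := Ideal.span {d} with hJ
  have hJI : J ≤ I := le_sup_left
  obtain ⟨𝔠, h𝔠⟩ := Ideal.dvd_iff_le.mpr hJI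
  have hdJ : d ∈ I * 𝔠 := by rw [← h𝔠]; exact Ideal.mem_span_singleton_self d
  rw [hI, Ideal.sup_mul] at hdJ
  obtain ⟨a₁, ha₁, a₂, ha₂, hsum⟩ := Submodule.mem_sup.mp hdJ
  obtain ⟨α, hα, rfl⟩ := Ideal.mem_span_singleton_mul.mp ha₁
  obtain ⟨β, hβ, rfl⟩ := Ideal.mem_span_singleton_mul.mp ha₂
  have hp : ∀ γ ∈ 𝔠, ∃ γ', p * γ = d * γ' := by
    intro γ hγ
    have h1 : p * γ ∈ I * 𝔠 :=
      Ideal.mul_mem_mul (Ideal.mem_sup_right (Ideal.mem_span_singleton_self p)) hγ
    rw [← h𝔠, hJ, Ideal.mem_span_singleton'] at h1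
    obtain ⟨γ', hγ'⟩ := h1
    exact ⟨γ', by rw [← hγ', mul_comm]⟩
  obtain ⟨β', hβ'⟩ := hp β hβ
  obtain ⟨α', hα'⟩ := hp α hα
  refine ⟨α, β, α', β', ?_, hβ', hα'⟩
  have h2 : d * (α + β') = d * 1 := by
    rw [mul_add, ← hβ', hsum, mul_one]
  exact mul_left_cancel₀ hd h2

end Dedekind

section Dual

variable {K : Type*} [Field K]
variable {T : Type*} [CommRing T] [Algebra K[X] T] [Algebra K T] [IsScalarTower K K[X] T]
variable {ι : Type*} [Fintype ι] [DecidableEq ι] (b : Module.Basis ι K[X] T)

/-- The `j`-th dual vector scaled by the discriminant: `v_j = ∑ i, adj(G) i j • b i`. -/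
noncomputable def dualVec (j : ι) : T :=
  ∑ i, (Algebra.traceMatrix K[X] b).adjugate i j • b i

lemma repr_dualVec (i j : ι) :
    b.repr (dualVec b j) i = (Algebra.traceMatrix K[X] b).adjugate i j := by
  simp [dualVec, Finsupp.single_apply, Finset.sum_apply']

lemma traceMatrix_transpose : (Algebra.traceMatrix K[X] b).transpose = Algebra.traceMatrix K[X] b := by
  ext i j
  rw [Matrix.transpose_apply, Algebra.traceMatrix_apply, Algebra.traceMatrix_apply,
    Algebra.traceForm_apply, Algebra.traceForm_apply, mul_comm]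

lemma trace_dualVec_mul_basis (j k : ι) :
    Algebra.trace K[X] T (dualVec b j * b k) =
      if j = k then Algebra.discr K[X] b else 0 := by
  set G := Algebra.traceMatrix K[X] b with hG
  have h1 : Algebra.trace K[X] T (dualVec b j * b k) = (G.adjugate.transpose * G) j k := by
    rw [dualVec, Finset.sum_mul, map_sum, Matrix.mul_apply]
    refine Finset.sum_congr rfl fun i _ => ?_
    rw [smul_mul_assoc, map_smul, smul_eq_mul, Matrix.transpose_apply, hG,
      Algebra.traceMatrix_apply, Algebra.traceForm_apply]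
  have h2 : G.adjugate.transpose * G = G.det • (1 : Matrix ι ι K[X]) := by
    rw [Matrix.adjugate_transpose, traceMatrix_transpose, Matrix.adjugate_mul]
  rw [h1, h2, Matrix.smul_apply, Matrix.one_apply, Algebra.discr_def, smul_eq_mul, ← hG]
  split_ifs <;> simp

lemma trace_dualVec_mul (j : ι) (z : T) :
    Algebra.trace K[X] T (dualVec b j * z) = Algebra.discr K[X] b * b.repr z j := by
  classical
  conv_lhs => rw [← b.sum_repr z, Finset.mul_sum, map_sum]
  rw [Finset.sum_eq_single j]
  · rw [mul_smul_comm, map_smul, smul_eq_mul, trace_dualVec_mul_basis, if_pos rfl, mul_comm]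
  · intro k _ hkj
    rw [mul_smul_comm, map_smul, smul_eq_mul, trace_dualVec_mul_basis, if_neg (Ne.symm hkj),
      mul_zero]
  · intro h; exact absurd (Finset.mem_univ j) h

end Dual

section Main

variable {K : Type*} [Field K] [CharZero K]
variable {T : Type*} [CommRing T] [IsDomain T] [IsIntegrallyClosed T]
  [Algebra K[X] T] [Algebra K T] [IsScalarTower K K[X] T]
variable {ι : Type*} [Fintype ι] [DecidableEq ι] (b : Module.Basis ι K[X] T)

/-- **Step 4.** Locally at `c`, `(X - c) • v_j ∈ D • T`. -/
theorem exists_mul_dualVec_eq (c : K) (j : ι) :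
    ∃ (g : K[X]) (w : T), g.eval c ≠ 0 ∧
      algebraMap K[X] T (g * (X - C c)) * dualVec b j =
        algebraMap K[X] T (Algebra.discr K[X] b) * w := by
  classical
  haveI : Module.Finite K[X] T := Module.Finite.of_basis b
  haveI : Module.Free K[X] T := Module.Free.of_basis b
  haveI : IsDedekindDomain T := isDedekindDomain_of_finite (K := K)
  have hinjX : Function.Injective (algebraMap K[X] T) := FaithfulSMul.algebraMap_injective _ _
  set D := Algebra.discr K[X] b with hD
  have hD0 : D ≠ 0 := discr_ne_zero_of_charZero b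
  have hd : algebraMap K[X] T D ≠ 0 := fun h => hD0 (hinjX (by rw [h, map_zero]))
  obtain ⟨α, β, α', β', hsum, hβ, hα⟩ :=
    exists_bezout_of_dedekind (algebraMap K[X] T D) (algebraMap K[X] T (X - C c) * dualVec b j) hd
  -- `β'` is nilpotent on the fibre
  have hβrad : β' ∈ (fibreIdeal T c).radical := by
    apply mem_radical_of_eval_trace_eq_zero b c
    intro z
    have h1 : D * Algebra.trace K[X] T (β' * z) =
        D * ((X - C c) * b.repr (β * z) j) := by
      calc D * Algebra.trace K[X] T (β' * z)
          = Algebra.trace K[X] T ((algebraMap K[X] T D * β') * z) := by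
            rw [mul_assoc, ← Algebra.smul_def, map_smul, smul_eq_mul]
        _ = Algebra.trace K[X] T ((X - C c) • (dualVec b j * (β * z))) := by
            rw [← hβ, Algebra.smul_def]; ring_nf
        _ = D * ((X - C c) * b.repr (β * z) j) := by
            rw [map_smul, smul_eq_mul, trace_dualVec_mul]; ring
    have h2 := mul_left_cancel₀ hD0 h1
    rw [h2, eval_mul, eval_sub, eval_X, eval_C, sub_self, zero_mul]
  -- so `α = 1 - β'` is a unit on the fibre
  have hα1 : α = 1 - β' := by rw [← hsum]; ring
  have hnil : IsNilpotent (fibreRep b c β') := by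
    obtain ⟨m, hm⟩ := hβrad
    refine ⟨m, ?_⟩
    rw [← map_pow]
    exact (fibreRep_eq_zero_iff b c _).mpr hm
  have hunit : IsUnit (fibreRep b c α) := by
    rw [hα1, map_sub, map_one]
    exact hnil.isUnit_one_sub
  have hdet : IsUnit (fibreRep b c α).det := (Matrix.isUnit_iff_isUnit_det _).mp hunit
  set g : K[X] := (Algebra.leftMulMatrix b α).det with hg
  have hgc : g.eval c ≠ 0 := by
    have h3 : (fibreRep b c α).det = g.eval c := by
      rw [hg, fibreRep, RingHom.comp_apply, ← RingHom.map_det]
      rfl
    rw [← h3]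
    exact hdet.ne_zero
  obtain ⟨αadj, hαadj⟩ := exists_mul_eq_algebraMap_norm b α
  refine ⟨g, α' * αadj, hgc, ?_⟩
  calc algebraMap K[X] T (g * (X - C c)) * dualVec b j
      = algebraMap K[X] T g * (algebraMap K[X] T (X - C c) * dualVec b j) := by
        rw [map_mul]; ring
    _ = αadj * ((algebraMap K[X] T (X - C c) * dualVec b j) * α) := by
        rw [← hαadj]; ring
    _ = algebraMap K[X] T D * (α' * αadj) := by
        rw [hα]; ring

/-- **Step 5.** There is a matrix `H` over `K[X]` and `g` with `g(c) ≠ 0` such that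
`G * H = (g * (X - c)) • 1`, `G` the trace matrix. -/
theorem exists_traceMatrix_mul_eq (c : K) :
    ∃ (g : K[X]) (H : Matrix ι ι K[X]), g.eval c ≠ 0 ∧
      Algebra.traceMatrix K[X] b * H = (g * (X - C c)) • (1 : Matrix ι ι K[X]) := by
  classical
  have hD0 : Algebra.discr K[X] b ≠ 0 := discr_ne_zero_of_charZero b
  choose gj wj hgj hwj using exists_mul_dualVec_eq b c
  set g : K[X] := ∏ j, gj j with hg
  have hgc : g.eval c ≠ 0 := by
    rw [hg, eval_prod]
    exact Finset.prod_ne_zero_iff.mpr fun j _ => hgj j
  -- the matrix `H`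
  let H : Matrix ι ι K[X] := fun i j => (∏ j' ∈ Finset.univ.erase j, gj j') * b.repr (wj j) i
  refine ⟨g, H, hgc, ?_⟩
  set G := Algebra.traceMatrix K[X] b with hG
  set D := Algebra.discr K[X] b with hD
  have hDG : G.det = D := by rw [hD, Algebra.discr_def]
  -- coordinates
  have hcoord : ∀ i j, (g * (X - C c)) * G.adjugate i j = D * H i j := by
    intro i j
    have h1 := congrArg (fun z => b.repr z i) (hwj j)
    simp only [← Algebra.smul_def, map_smul, Finsupp.smul_apply, smul_eq_mul,
      repr_dualVec] at h1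
    have h2 : g = (∏ j' ∈ Finset.univ.erase j, gj j') * gj j := by
      rw [hg, Finset.prod_erase_mul _ _ (Finset.mem_univ j)]
    show g * (X - C c) * G.adjugate i j =
      D * ((∏ j' ∈ Finset.univ.erase j, gj j') * b.repr (wj j) i)
    rw [h2]
    calc (∏ j' ∈ Finset.univ.erase j, gj j') * gj j * (X - C c) * G.adjugate i j
        = (∏ j' ∈ Finset.univ.erase j, gj j') * (gj j * (X - C c) * G.adjugate i j) := by ring
      _ = (∏ j' ∈ Finset.univ.erase j, gj j') * (D * b.repr (wj j) i) := by rw [h1]
      _ = D * ((∏ j' ∈ Finset.univ.erase j, gj j') * b.repr (wj j) i) := by ring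
  have hmat : (g * (X - C c)) • G.adjugate = D • H := by
    refine Matrix.ext fun i j => ?_
    rw [Matrix.smul_apply, Matrix.smul_apply, smul_eq_mul, smul_eq_mul]
    exact hcoord i j
  have h3 : D • (G * H) = D • ((g * (X - C c)) • (1 : Matrix ι ι K[X])) := by
    calc D • (G * H) = G * (D • H) := by rw [Matrix.mul_smul]
      _ = G * ((g * (X - C c)) • G.adjugate) := by rw [hmat]
      _ = (g * (X - C c)) • (G * G.adjugate) := by rw [Matrix.mul_smul]
      _ = (g * (X - C c)) • (D • (1 : Matrix ι ι K[X])) := by rw [Matrix.mul_adjugate, hDG]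
      _ = D • ((g * (X - C c)) • (1 : Matrix ι ι K[X])) := by rw [smul_comm]
  refine Matrix.ext fun i j => ?_
  have h4 := congrFun (congrFun h3 i) j
  rw [Matrix.smul_apply, Matrix.smul_apply, smul_eq_mul, smul_eq_mul] at h4
  exact mul_left_cancel₀ hD0 h4

/-- **Tame bound.**  In characteristic zero, for an integrally closed domain `T` free of rank `n`
over `K[X]`: `ord_c (discr) + redRank T c ≤ n`. -/
theorem rootMultiplicity_discr_add_redRank_le (c : K) :
    (Algebra.discr K[X] b).rootMultiplicity c + redRank T c ≤ Fintype.card ι := by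
  classical
  obtain ⟨g, H, hgc, hGH⟩ := exists_traceMatrix_mul_eq b c
  set G := Algebra.traceMatrix K[X] b with hG
  have hD0 : G.det ≠ 0 := by
    have := discr_ne_zero_of_charZero b
    rwa [Algebra.discr_def] at this
  set n := Fintype.card ι with hn
  -- determinants
  have hdet : G.det * H.det = g ^ n * (X - C c) ^ n := by
    rw [← Matrix.det_mul, hGH, Matrix.det_smul, Matrix.det_one, mul_one, mul_pow]
  have hg0 : g ≠ 0 := fun h => hgc (by rw [h, eval_zero])
  have hrhs0 : g ^ n * (X - C c) ^ n ≠ 0 :=
    mul_ne_zero (pow_ne_zero _ hg0) (pow_ne_zero _ (X_sub_C_ne_zero c))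
  have hH0 : H.det ≠ 0 := by
    intro h0
    rw [h0, mul_zero] at hdet
    exact hrhs0 hdet.symm
  have hmult : G.det.rootMultiplicity c + H.det.rootMultiplicity c = n := by
    rw [← rootMultiplicity_mul (mul_ne_zero hD0 hH0), hdet, rootMultiplicity_mul hrhs0,
      rootMultiplicity_X_sub_C_pow, rootMultiplicity_eq_zero, zero_add]
    rw [IsRoot, eval_pow]
    exact pow_ne_zero _ hgc
  -- ranks
  set Gbar : Matrix ι ι K := G.map (evalRingHom c) with hGbar
  set Hbar : Matrix ι ι K := H.map (evalRingHom c) with hHbar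
  have hGHbar : Gbar * Hbar = 0 := by
    rw [hGbar, hHbar, ← Matrix.map_mul, hGH]
    refine Matrix.ext fun i j => ?_
    rw [Matrix.map_apply, Matrix.smul_apply, Matrix.zero_apply, smul_eq_mul, coe_evalRingHom,
      eval_mul, eval_mul, eval_sub, eval_X, eval_C, sub_self, mul_zero, zero_mul]
  have hrange : LinearMap.range Hbar.mulVecLin ≤ LinearMap.ker Gbar.mulVecLin := by
    rintro _ ⟨v, rfl⟩
    rw [LinearMap.mem_ker, Matrix.mulVecLin_apply, Matrix.mulVecLin_apply, Matrix.mulVec_mulVec,
      hGHbar, Matrix.zero_mulVec]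
  have h1 := LinearMap.finrank_range_add_finrank_ker Gbar.mulVecLin
  have h2 : Module.finrank K (LinearMap.range Hbar.mulVecLin) ≤
      Module.finrank K (LinearMap.ker Gbar.mulVecLin) := Submodule.finrank_mono hrange
  have h3 : Module.finrank K (ι → K) = n := Module.finrank_fintype_fun_eq_card K
  have h4 : Gbar.rank = Module.finrank K (LinearMap.range Gbar.mulVecLin) := rfl
  have h5 : Hbar.rank = Module.finrank K (LinearMap.range Hbar.mulVecLin) := rfl
  have h6 : redRank T c ≤ Gbar.rank := redRank_le_rank_traceMatrix_eval b c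
  have h7 : n - Hbar.rank ≤ H.det.rootMultiplicity c :=
    (le_rootMultiplicity_iff hH0).mpr
      (pow_corank_dvd_det (evalRingHom c) (fun a => ⟨C a, by simp⟩) (X - C c)
        (fun s hs => Polynomial.dvd_iff_isRoot.mpr hs) H)
  have h8 : (Algebra.discr K[X] b).rootMultiplicity c = G.det.rootMultiplicity c := by
    rw [Algebra.discr_def]
  rw [h8]
  omega

/-- **Tame discriminant formula.** -/
theorem rootMultiplicity_discr_add_redRank_eq (c : K) :
    (Algebra.discr K[X] b).rootMultiplicity c + redRank T c = Fintype.card ι := by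
  have h1 := rootMultiplicity_discr_add_redRank_le b c
  have h2 : Fintype.card ι - redRank T c ≤ (Algebra.discr K[X] b).rootMultiplicity c :=
    (le_rootMultiplicity_iff (discr_ne_zero_of_charZero b)).mpr (pow_dvd_discr b c)
  omega

end Main

end Fermat.Agent.S37.H939
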